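import Fermat.Agent.LT.T6.H277.OrbEllSpec
import Fermat.Agent.LT.H129.Newton

/-!
# Row LT, tower T6, leaf T6.13.2.1 `PolyNFC` (helper546), OFF-MAIN

Normal form of `(tr, det)` for an elliptic unramified element (Newton + Hensel):
`X² - tX + n` without root in `k`, whose norm form never has the valuation of a uniformiser.
Then `t = ϖ^j (2a + ϖ^r t')`, `n = ϖ^{2j} (a² + a ϖ^r t' + ϖ^{2r} n')`, `a, t' ∈ 𝒪`, `n' ∈ 𝒪ˣ`,
and `X² - t'X + n'` has no root modulo `ϖ`.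

Mathlib + `T6/Spec.lean` (helper22) + `T6/H277/OrbEllSpec.lean` (helper277) +
`H129/Newton.lean` (helper129: `newtonC129`, `exists_fixed129`), byte-identical copies.
-/

set_option autoImplicit false

noncomputable section

namespace Fermat.Agent.LT.T6.H277.H546

open Fermat.Agent.LT.T6 Fermat.Agent.LT.T6.H277 Fermat.Agent.LT.H129 Fermat.Agent.LT.T6.H159

variable {k : Type} [Field k] [Valued k Γ₀]

/-! ## Valuations of powers of a uniformiser -/

theorem unif_ne_zero_h546 {ϖ : k} (hϖ : Valued.v ϖ = WithZero.exp (-1 : ℤ)) : ϖ ≠ 0 := by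
  intro h
  rw [h, map_zero] at hϖ
  exact WithZero.exp_ne_zero hϖ.symm

theorem v_unif_zpow_h546 {ϖ : k} (hϖ : Valued.v ϖ = WithZero.exp (-1 : ℤ)) (m : ℤ) :
    Valued.v (ϖ ^ m) = WithZero.exp (-m) := by
  rw [map_zpow₀, hϖ, ← WithZero.exp_zsmul]
  congr 1
  simp

theorem v_unif_pow_h546 {ϖ : k} (hϖ : Valued.v ϖ = WithZero.exp (-1 : ℤ)) (r : ℕ) :
    Valued.v (ϖ ^ r) = WithZero.exp (-(r : ℤ)) := by
  rw [map_pow, hϖ, ← WithZero.exp_nsmul]
  congr 1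
  simp

theorem exp_sq_h546 (a : ℤ) : (WithZero.exp a : Γ₀) ^ 2 = WithZero.exp (2 * a) := by
  rw [← WithZero.exp_nsmul]
  congr 1

theorem v_eq_exp_log_h546 {x : k} (hx : x ≠ 0) :
    Valued.v x = WithZero.exp (WithZero.log (Valued.v x)) :=
  (WithZero.exp_log ((Valuation.ne_zero_iff _).mpr hx)).symm

theorem v_two_le_h546 : Valued.v (2 : k) ≤ 1 := by
  have : (2 : k) = 1 + 1 := by norm_num
  rw [this]
  exact le_trans (Valuation.map_add _ _ _) (by simp)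

theorem v_four_le_h546 : Valued.v (4 : k) ≤ 1 := by
  have : (4 : k) = 2 * 2 := by norm_num
  rw [this, map_mul]
  exact mul_le_one' v_two_le_h546 v_two_le_h546

/-- An integral monic quadratic polynomial has integral values at integral points. -/
theorem v_chi_le_h546 {τ d b : k} (hτ : Valued.v τ ≤ 1) (hd : Valued.v d ≤ 1)
    (hb : Valued.v b ≤ 1) : Valued.v (b ^ 2 - τ * b + d) ≤ 1 := by
  have h1 : Valued.v (b ^ 2) ≤ 1 := by
    rw [map_pow]; exact pow_le_one' hb 2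
  have h2 : Valued.v (τ * b) ≤ 1 := by
    rw [map_mul]; exact mul_le_one' hτ hb
  exact le_trans (Valuation.map_add _ _ _) (max_le (Valuation.map_sub_le _ h1 h2) hd)

/-! ## Hensel: the discriminant bounds the values -/

/-- If `X² - τX + d` has no root in the complete field `k` of characteristic zero, then
`|D| ≤ |b² - τ b + d|` for every `b`, `D = τ² - 4d`. -/
theorem disc_le_h546 [CompleteSpace k] [CharZero k] {τ d : k}
    (hroot : ∀ x : k, x ^ 2 - τ * x + d ≠ 0) (b : k) :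
    Valued.v (τ ^ 2 - 4 * d) ≤ Valued.v (b ^ 2 - τ * b + d) := by
  by_contra h
  rw [not_le] at h
  obtain ⟨D, hD⟩ : ∃ D : k, D = τ ^ 2 - 4 * d := ⟨_, rfl⟩
  obtain ⟨e, he⟩ : ∃ e : k, e = b ^ 2 - τ * b + d := ⟨_, rfl⟩
  rw [← hD, ← he] at h
  have hD0 : D ≠ 0 := by
    intro h0
    rw [h0, map_zero] at h
    exact not_lt_zero h
  have hvD : Valued.v D ≠ 0 := (Valuation.ne_zero_iff _).mpr hD0
  have hc : Valued.v (-(e / D)) < 1 := by
    rw [Valuation.map_neg, map_div₀, div_lt_one₀ (zero_lt_iff.mpr hvD)]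
    exact h
  obtain ⟨Y, hY⟩ := exists_fixed129 hc
  -- `(1 - 2Y)² = 1 + 4 e / D`
  have h1 : (1 - 2 * Y) ^ 2 = 1 + 4 * (e / D) := by
    have : Y ^ 2 = Y + e / D := by
      have := hY
      linear_combination -this
    calc (1 - 2 * Y) ^ 2 = 1 - 4 * Y + 4 * Y ^ 2 := by ring
      _ = 1 + 4 * (e / D) := by rw [this]; ring
  have h2 : D * (1 - 2 * Y) ^ 2 = (2 * b - τ) ^ 2 := by
    rw [h1, mul_add, mul_one, mul_left_comm, mul_div_cancel₀ _ hD0, hD, he]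
    ring
  by_cases h0 : 1 - 2 * Y = 0
  · -- then `e / D = -1/4`, of valuation `≥ 1`
    rw [h0] at h1
    have h4 : (4 : k) ≠ 0 := by norm_num
    have h3 : -(e / D) = 1 / 4 := by
      linear_combination (1 / 4 : k) * h1
    rw [h3, map_div₀, map_one, div_lt_one₀ (zero_lt_iff.mpr ((Valuation.ne_zero_iff _).mpr h4))]
      at hc
    exact absurd v_four_le_h546 (not_le.mpr hc)
  · -- `D = s²`, `s = (2b - τ) / (1 - 2Y)`, and `(τ + s) / 2` is a root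
    obtain ⟨s, hs⟩ : ∃ s : k, s = (2 * b - τ) / (1 - 2 * Y) := ⟨_, rfl⟩
    have hs2 : s ^ 2 = D := by
      rw [hs, div_pow, ← h2]
      field_simp
    apply hroot ((τ + s) / 2)
    have h2' : (2 : k) ≠ 0 := by norm_num
    have : ((τ + s) / 2) ^ 2 - τ * ((τ + s) / 2) + d = (s ^ 2 - (τ ^ 2 - 4 * d)) / 4 := by
      field_simp
      ring
    rw [this, hs2, hD, sub_self, zero_div]

/-! ## The normal form -/

/-- **T6.13.2.1 `PolyNFC`.** -/
theorem polyNFC_h546 : PolyNFC := by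
  intro k _ _ q hk t n hn0 hroot hN
  have := hk.complete
  have := hk.char0
  obtain ⟨ϖ, hϖ⟩ := hk.unif
  have hϖ0 : ϖ ≠ 0 := unif_ne_zero_h546 hϖ
  -- (1) the valuation of `n` is even
  obtain ⟨m, hm⟩ : ∃ m : ℤ, Valued.v n = WithZero.exp m := ⟨_, v_eq_exp_log_h546 hn0⟩
  obtain ⟨s, hs | hs⟩ := Int.even_or_odd' m
  swap
  · exfalso
    apply hN 0 (ϖ ^ (s + 1))
    have : (0 : k) ^ 2 + t * 0 * ϖ ^ (s + 1) + n * (ϖ ^ (s + 1)) ^ 2 = n * (ϖ ^ (s + 1)) ^ 2 := by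
      ring
    rw [this, map_mul, map_pow, v_unif_zpow_h546 hϖ, hm, exp_sq_h546, ← WithZero.exp_add]
    congr 1
    omega
  -- `P = ϖ^j`, `j = -s`
  obtain ⟨j, hj⟩ : ∃ j : ℤ, j = -s := ⟨_, rfl⟩
  obtain ⟨P, hP⟩ : ∃ P : k, P = ϖ ^ j := ⟨_, rfl⟩
  have hP0 : P ≠ 0 := by rw [hP]; exact zpow_ne_zero _ hϖ0
  have hvP : Valued.v P = WithZero.exp (-j) := by rw [hP]; exact v_unif_zpow_h546 hϖ j
  have hP2 : P ^ 2 = ϖ ^ (2 * j) := by
    rw [hP, ← zpow_natCast, ← zpow_mul]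
    congr 1
    push_cast
    ring
  obtain ⟨t0, ht0⟩ : ∃ t0 : k, t0 = t / P := ⟨_, rfl⟩
  obtain ⟨n0, hn0'⟩ : ∃ n0 : k, n0 = n / P ^ 2 := ⟨_, rfl⟩
  have htP : t = P * t0 := by rw [ht0]; field_simp
  have hnP : n = P ^ 2 * n0 := by rw [hn0']; field_simp
  have hvn0 : Valued.v n0 = 1 := by
    rw [hn0', map_div₀, map_pow, hvP, hm, exp_sq_h546, ← WithZero.exp_sub]
    rw [WithZero.exp_eq_one]
    omega
  have hroot0 : ∀ x : k, x ^ 2 - t0 * x + n0 ≠ 0 := by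
    intro x hx
    apply hroot (P * x)
    rw [htP, hnP]
    have : (P * x) ^ 2 - P * t0 * (P * x) + P ^ 2 * n0 = P ^ 2 * (x ^ 2 - t0 * x + n0) := by ring
    rw [this, hx, mul_zero]
  -- (2) `t0` is integral
  have hvt0 : Valued.v t0 ≤ 1 := by
    by_contra h
    obtain ⟨x, hx⟩ := newtonC129 k q hk t0 n0 hvn0 (not_le.mp h)
    exact hroot0 x hx
  -- (3) the discriminant bounds the values
  obtain ⟨D, hD⟩ : ∃ D : k, D = t0 ^ 2 - 4 * n0 := ⟨_, rfl⟩
  have hDle : ∀ b : k, Valued.v D ≤ Valued.v (b ^ 2 - t0 * b + n0) := by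
    intro b
    rw [hD]
    exact disc_le_h546 hroot0 b
  have hD0 : D ≠ 0 := by
    intro h0
    have h2' : (2 : k) ≠ 0 := by norm_num
    apply hroot0 (t0 / 2)
    have : (t0 / 2) ^ 2 - t0 * (t0 / 2) + n0 = -(t0 ^ 2 - 4 * n0) / 4 := by
      field_simp
      ring
    rw [this, ← hD, h0, neg_zero, zero_div]
  -- (4) the maximal order of a value at an integral point
  obtain ⟨S, hS⟩ : ∃ S : Set ℕ, S = {i : ℕ | ∃ b : k, Valued.v b ≤ 1 ∧
      Valued.v (b ^ 2 - t0 * b + n0) = WithZero.exp (-(i : ℤ))} := ⟨_, rfl⟩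
  have hmemS : ∀ b : k, Valued.v b ≤ 1 → ∃ i ∈ S,
      Valued.v (b ^ 2 - t0 * b + n0) = WithZero.exp (-(i : ℤ)) := by
    intro b hb
    have hle : Valued.v (b ^ 2 - t0 * b + n0) ≤ 1 := v_chi_le_h546 hvt0 hvn0.le hb
    have hne : Valued.v (b ^ 2 - t0 * b + n0) ≠ 0 := (Valuation.ne_zero_iff _).mpr (hroot0 b)
    have hlog : WithZero.log (Valued.v (b ^ 2 - t0 * b + n0)) ≤ 0 := by
      rw [WithZero.log_le_iff_le_exp hne, WithZero.exp_zero]
      exact hle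
    have he : Valued.v (b ^ 2 - t0 * b + n0)
        = WithZero.exp (-(((-WithZero.log (Valued.v (b ^ 2 - t0 * b + n0))).toNat : ℕ) : ℤ)) := by
      rw [Int.toNat_of_nonneg (by omega), neg_neg]
      exact (WithZero.exp_log hne).symm
    refine ⟨_, ?_, he⟩
    rw [hS]
    exact ⟨b, hb, he⟩
  have hbdd : BddAbove S := by
    refine ⟨(-WithZero.log (Valued.v D)).toNat, ?_⟩
    intro i hi
    rw [hS] at hi
    obtain ⟨b, _, hvb⟩ := hi
    have h1 := hDle b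
    rw [hvb, v_eq_exp_log_h546 hD0, WithZero.exp_le_exp] at h1
    omega
  have hne : S.Nonempty := by
    obtain ⟨i, hi, _⟩ := hmemS 0 (by simp)
    exact ⟨i, hi⟩
  have hsup : sSup S ∈ S := Nat.sSup_mem hne hbdd
  obtain ⟨i₀, hi₀⟩ : ∃ i₀ : ℕ, i₀ = sSup S := ⟨_, rfl⟩
  rw [← hi₀] at hsup
  have hsup' := hsup
  rw [hS] at hsup'
  obtain ⟨a, hva, hchia⟩ := hsup'
  have hmax : ∀ b : k, Valued.v b ≤ 1 →
      WithZero.exp (-(i₀ : ℤ)) ≤ Valued.v (b ^ 2 - t0 * b + n0) := by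
    intro b hb
    obtain ⟨i, hi, hvi⟩ := hmemS b hb
    have : i ≤ i₀ := by rw [hi₀]; exact le_csSup hbdd hi
    rw [hvi, WithZero.exp_le_exp]
    omega
  -- the maximum is even
  obtain ⟨r, hr | hr⟩ := Nat.even_or_odd' i₀
  swap
  · exfalso
    obtain ⟨c, hc⟩ : ∃ c : k, c = (ϖ ^ r)⁻¹ := ⟨_, rfl⟩
    apply hN (-a * c) (P⁻¹ * c)
    have : (-a * c) ^ 2 + t * (-a * c) * (P⁻¹ * c) + n * (P⁻¹ * c) ^ 2
        = c ^ 2 * (a ^ 2 - t0 * a + n0) := by
      rw [ht0, hn0']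
      field_simp
      ring
    rw [this, map_mul, map_pow, hchia, hc, map_inv₀, v_unif_pow_h546 hϖ, ← WithZero.exp_neg,
      exp_sq_h546, ← WithZero.exp_add]
    congr 1
    omega
  -- (5) `R = ϖ^r`, `t1`, `n1`
  obtain ⟨R, hR⟩ : ∃ R : k, R = ϖ ^ r := ⟨_, rfl⟩
  have hR0 : R ≠ 0 := by rw [hR]; exact pow_ne_zero _ hϖ0
  have hvR : Valued.v R = WithZero.exp (-(r : ℤ)) := by rw [hR]; exact v_unif_pow_h546 hϖ r
  have hvR1 : Valued.v R ≤ 1 := by
    rw [hvR, ← WithZero.exp_zero, WithZero.exp_le_exp]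
    omega
  have hR2 : R ^ 2 = ϖ ^ (2 * r) := by
    rw [hR, ← pow_mul, mul_comm]
  obtain ⟨t1, ht1⟩ : ∃ t1 : k, t1 = (t0 - 2 * a) / R := ⟨_, rfl⟩
  obtain ⟨n1, hn1⟩ : ∃ n1 : k, n1 = (a ^ 2 - t0 * a + n0) / R ^ 2 := ⟨_, rfl⟩
  have hvn1 : Valued.v n1 = 1 := by
    rw [hn1, map_div₀, map_pow, hvR, hchia, exp_sq_h546, ← WithZero.exp_sub,
      WithZero.exp_eq_one]
    omega
  have hshift : ∀ x : k, (a + R * x) ^ 2 - t0 * (a + R * x) + n0
      = R ^ 2 * (x ^ 2 - t1 * x + n1) := by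
    intro x
    rw [ht1, hn1]
    field_simp
    ring
  have hroot1 : ∀ x : k, x ^ 2 - t1 * x + n1 ≠ 0 := by
    intro x hx
    apply hroot0 (a + R * x)
    rw [hshift, hx, mul_zero]
  have hvt1 : Valued.v t1 ≤ 1 := by
    by_contra h
    obtain ⟨x, hx⟩ := newtonC129 k q hk t1 n1 hvn1 (not_le.mp h)
    exact hroot1 x hx
  -- (6) no root modulo `ϖ`
  have hunit : ∀ b : k, Valued.v b ≤ 1 → Valued.v (chi277 t1 n1 b) = 1 := by
    intro b hb
    unfold chi277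
    apply le_antisymm (v_chi_le_h546 hvt1 hvn1.le hb)
    have hab : Valued.v (a + R * b) ≤ 1 := by
      refine le_trans (Valuation.map_add _ _ _) (max_le hva ?_)
      rw [map_mul]
      exact mul_le_one' hvR1 hb
    have h1 := hmax (a + R * b) hab
    rw [hshift, map_mul, map_pow, hvR, exp_sq_h546, hr] at h1
    have h2 : (WithZero.exp (2 * -(r : ℤ)) : Γ₀) ≠ 0 := WithZero.exp_ne_zero
    have h3 : (WithZero.exp (-((2 * r : ℕ) : ℤ)) : Γ₀) = WithZero.exp (2 * -(r : ℤ)) := by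
      congr 1
      push_cast
      ring
    rw [h3] at h1
    have h4 : WithZero.exp (2 * -(r : ℤ)) * 1
        ≤ WithZero.exp (2 * -(r : ℤ)) * Valued.v (b ^ 2 - t1 * b + n1) := by
      rw [mul_one]; exact h1
    exact le_of_mul_le_mul_left h4 (zero_lt_iff.mpr h2)
  -- the formulas
  have hinner : a ^ 2 + a * ϖ ^ r * t1 + ϖ ^ (2 * r) * n1 = n0 := by
    rw [← hR2, ← hR, ht1, hn1]
    field_simp
    ring
  refine ⟨ϖ, j, r, a, t1, n1, hϖ, hva, hvt1, hvn1, hunit, ?_, ?_, ?_⟩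
  · rw [hinner]; exact hvn0
  · rw [← hP, ← hR, htP, ht1]
    field_simp
    ring
  · rw [hinner, ← hP2]
    exact hnP

end Fermat.Agent.LT.T6.H277.H546

end
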